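import Fermat.Agent.KrullRemakSchmidt.Fitting
import Mathlib.Algebra.Group.Prod

/-!
# The exchange lemma

If a factor `C` maps isomorphically into `Y` and back in `C × A ≅ Y × Z`, then `Y ≅ C × K` and
`A ≅ K × Z` for some `K`; for indecomposable `C` one of `Y`, `Z` will do.
-/

set_option autoImplicit false
set_option linter.style.haveILetI false

noncomputable section

open Subgroup

universe u

namespace FA.KrullRemakSchmidt

variable {C A Y Z : Type u} [Group C] [Group A] [Group Y] [Group Z]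

/-- **Splitting.** -/
theorem exists_splitting [Finite C] [Finite A] (e : C × A ≃* Y × Z)
    (hbij : Function.Bijective fun c => (e.symm ((e (c, 1)).1, 1)).1) :
    ∃ K : Subgroup Y, Nonempty (Y ≃* C × K) ∧ Nonempty (A ≃* K × Z) := by
  haveI : Finite (Y × Z) := Finite.of_equiv _ e.toEquiv
  haveI : Finite Y := Finite.of_injective (fun y : Y => (y, (1 : Z))) fun a b h => congrArg Prod.fst h
  haveI : Finite Z := Finite.of_injective (fun z : Z => ((1 : Y), z)) fun a b h => congrArg Prod.snd h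
  set α : C →* Y := (MonoidHom.fst Y Z).comp (e.toMonoidHom.comp (MonoidHom.inl C A)) with hα
  set β : Y →* C := (MonoidHom.fst C A).comp (e.symm.toMonoidHom.comp (MonoidHom.inl Y Z)) with hβ
  let γ : C ≃* C := MulEquiv.ofBijective (β.comp α) hbij
  have hγ : ∀ c, γ c = β (α c) := fun c => rfl
  set r : Y →* Y := α.comp (γ.symm.toMonoidHom.comp β) with hr
  have hβr : ∀ y, β (r y) = β y := fun y => by
    show β (α (γ.symm (β y))) = β y
    rw [← hγ, MulEquiv.apply_symm_apply]
  haveI hαn : α.range.Normal := by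
    refine ⟨fun y ⟨c, hc⟩ g => ?_⟩
    obtain ⟨⟨c', a'⟩, hca⟩ := e.surjective (g, 1)
    refine ⟨c' * c * c'⁻¹, ?_⟩
    rw [← hc]
    show (e (c' * c * c'⁻¹, 1)).1 = g * (e (c, 1)).1 * g⁻¹
    have h : e ((c', a') * (c, 1) * (c', a')⁻¹) = (g, 1) * e (c, 1) * (g, 1)⁻¹ := by
      rw [map_mul, map_mul, map_inv, hca]
    have h' : ((c', a') * (c, 1) * (c', a')⁻¹ : C × A) = (c' * c * c'⁻¹, 1) := by simp
    rw [h'] at h
    rw [h]
    rfl
  have hdis : Disjoint α.range β.ker := by
    rw [Subgroup.disjoint_def]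
    rintro - ⟨c, rfl⟩ h
    have : γ c = 1 := h
    rw [MulEquiv.map_eq_one_iff] at this
    rw [this, map_one]
  have hcommute : ∀ a ∈ α.range, ∀ b ∈ β.ker, a * b = b * a := fun a ha b hb =>
    commute_of_normal_of_disjoint α.range β.ker hαn inferInstance hdis a b ha hb
  have hrest : ∀ y, (r y)⁻¹ * y ∈ β.ker := fun y => by
    rw [MonoidHom.mem_ker, map_mul, map_inv, hβr, inv_mul_cancel]
  let q : Y →* β.ker :=
    { toFun := fun y => ⟨(r y)⁻¹ * y, hrest y⟩
      map_one' := Subtype.ext (by simp)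
      map_mul' := fun x y => Subtype.ext (by
        show (r (x * y))⁻¹ * (x * y) = (r x)⁻¹ * x * ((r y)⁻¹ * y)
        have h := hcommute (r y)⁻¹ (inv_mem ⟨_, rfl⟩) _ (hrest x)
        rw [map_mul, mul_inv_rev]
        calc (r y)⁻¹ * (r x)⁻¹ * (x * y) = (r y)⁻¹ * ((r x)⁻¹ * x) * y := by group
          _ = (r x)⁻¹ * x * (r y)⁻¹ * y := by rw [h]
          _ = (r x)⁻¹ * x * ((r y)⁻¹ * y) := by group) }
  refine ⟨β.ker, ?_, ?_⟩
  · refine ⟨MulEquiv.ofBijective ((γ.symm.toMonoidHom.comp β).prod q) ⟨fun x y h => ?_, ?_⟩⟩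
    · have h1 : r x = r y := congrArg (fun p : C × β.ker => α p.1) h
      have h2 : (r x)⁻¹ * x = (r y)⁻¹ * y := congrArg (fun p : C × β.ker => (p.2 : Y)) h
      rwa [h1, mul_left_cancel_iff] at h2
    · rintro ⟨c, k⟩
      have hb : γ.symm (β (α c * (k : Y))) = c := by
        rw [map_mul, MonoidHom.mem_ker.1 k.2, mul_one, ← hγ, MulEquiv.symm_apply_apply]
      refine ⟨α c * (k : Y), Prod.ext hb (Subtype.ext ?_)⟩
      show (α (γ.symm (β (α c * (k : Y)))))⁻¹ * (α c * (k : Y)) = k
      rw [hb, inv_mul_cancel_left]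
  · set j : A →* β.ker × Z :=
      (q.comp ((MonoidHom.fst Y Z).comp (e.toMonoidHom.comp (MonoidHom.inr C A)))).prod
        ((MonoidHom.snd Y Z).comp (e.toMonoidHom.comp (MonoidHom.inr C A)))
    have hinj : Function.Injective j := by
      refine (injective_iff_map_eq_one j).2 fun a ha => ?_
      set y := (e (1, a)).1
      have hz : (e (1, a)).2 = 1 := congrArg Prod.snd ha
      have hq : (r y)⁻¹ * y = 1 := congrArg (fun p : β.ker × Z => (p.1 : Y)) ha
      have hy : e (1, a) = (y, 1) := Prod.ext rfl hz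
      have hby : β y = 1 := by
        show (e.symm (y, 1)).1 = 1
        rw [← hy, MulEquiv.symm_apply_apply]
      have hy1 : y = 1 := by
        rw [← inv_mul_eq_one.1 hq]
        show α (γ.symm (β y)) = 1
        rw [hby, map_one, map_one]
      have : ((1 : C), a) = 1 := e.injective (by rw [hy, hy1, map_one]; rfl)
      exact congrArg Prod.snd this
    refine ⟨MulEquiv.ofBijective j (hinj.bijective_of_nat_card_le (le_of_eq ?_))⟩
    have hrange : Nat.card β.range = Nat.card C := by
      rw [MonoidHom.range_eq_top.2 fun c => ⟨α (γ.symm c), γ.apply_symm_apply c⟩, card_top]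
    have h1 : Nat.card Y = Nat.card C * Nat.card β.ker := by
      rw [← β.ker.index_mul_card, index_ker, hrange]
    refine Nat.eq_of_mul_eq_mul_left (Nat.card_pos (α := C)) ?_
    rw [Nat.card_prod, ← Nat.mul_assoc, ← h1, ← Nat.card_prod, ← Nat.card_prod]
    exact (Nat.card_congr e.toEquiv).symm

/-- For an indecomposable factor one of the two sides splits. -/
theorem exists_exchange [Finite C] [Finite A] (hC : Indecomposable C) (e : C × A ≃* Y × Z) :
    (∃ K : Subgroup Y, Nonempty (Y ≃* C × K) ∧ Nonempty (A ≃* K × Z)) ∨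
      ∃ K : Subgroup Z, Nonempty (Z ≃* C × K) ∧ Nonempty (A ≃* K × Y) := by
  let e' : C × A ≃* Z × Y := e.trans MulEquiv.prodComm
  have key : ∀ {W V : Type u} [Group W] [Group V] (d : C × A ≃* W × V),
      NormalEndo ((MonoidHom.fst C A).comp (d.symm.toMonoidHom.comp
        ((MonoidHom.inl W V).comp ((MonoidHom.fst W V).comp
          (d.toMonoidHom.comp (MonoidHom.inl C A)))))) := by
    intro W V _ _ d g x
    show (d.symm ((d (g * x * g⁻¹, 1)).1, 1)).1 = g * (d.symm ((d (x, 1)).1, 1)).1 * g⁻¹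
    have h1 : ((g * x * g⁻¹, 1) : C × A) = (g, 1) * (x, 1) * (g, 1)⁻¹ := by simp
    have h2 : ((d (g * x * g⁻¹, 1)).1, (1 : V)) = d (g, 1) * ((d (x, 1)).1, 1) * (d (g, 1))⁻¹ := by
      rw [h1, map_mul, map_mul, map_inv]
      refine Prod.ext rfl ?_
      simp
    rw [h2, map_mul, map_mul, map_inv, MulEquiv.symm_apply_apply]
    rfl
  have hsum : ∀ c : C, MonoidHom.id C c =
      (e.symm ((e (c, 1)).1, 1)).1 * (e'.symm ((e' (c, 1)).1, 1)).1 := fun c => by
    show c = (e.symm ((e (c, 1)).1, 1)).1 * (e.symm (1, (e (c, 1)).2)).1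
    rw [← Prod.fst_mul, ← map_mul, Prod.mk_mul_mk, mul_one, one_mul, Prod.mk.eta,
      MulEquiv.symm_apply_apply]
  rcases bijective_of_mul hC (key e) (key e') (p := MonoidHom.id C) hsum
    Function.bijective_id with h | h
  · exact Or.inl (exists_splitting e h)
  · exact Or.inr (exists_splitting e' h)

end FA.KrullRemakSchmidt

end
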