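import Mathlib.GroupTheory.Complement
import Mathlib.GroupTheory.QuotientGroup.Finite
import Mathlib.Algebra.Group.Subgroup.Finite
import Mathlib.Data.SetLike.Fintype
import Mathlib.Tactic.Group

/-!
# Normal endomorphisms of indecomposable groups

Fitting's lemma: a normal endomorphism splits the group into an eventual kernel and image, so on an
indecomposable group it is bijective or nilpotent, and two which add up to an automorphism include
one.
-/

set_option autoImplicit false
set_option linter.style.haveILetI false

noncomputable section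

open Subgroup

namespace FA.KrullRemakSchmidt

/-- Directly indecomposable. -/
def Indecomposable (G : Type*) [Group G] : Prop :=
  Nontrivial G ∧ ∀ H K : Subgroup G, H.Normal → K.Normal → H.IsComplement' K → H = ⊥ ∨ K = ⊥

variable {G : Type*} [Group G]

/-- The endomorphism commutes with the inner automorphisms. -/
def NormalEndo (f : G →* G) : Prop := ∀ g x, f (g * x * g⁻¹) = g * f x * g⁻¹

/-- The powers of an endomorphism. -/
def power (f : G →* G) : ℕ → G →* G
  | 0 => MonoidHom.id G
  | n + 1 => f.comp (power f n)

theorem power_add (f : G →* G) (m n : ℕ) (x : G) :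
    power f (m + n) x = power f m (power f n x) := by
  induction m with
  | zero => rw [Nat.zero_add]; rfl
  | succ m ih => rw [Nat.succ_add]; exact congrArg f ih

theorem NormalEndo.power {f : G →* G} (hf : NormalEndo f) :
    ∀ n, NormalEndo (power f n)
  | 0 => fun _ _ => rfl
  | n + 1 => fun g x => by
    show f (FA.KrullRemakSchmidt.power f n (g * x * g⁻¹)) = _
    rw [hf.power n g x, hf]
    rfl

variable [Finite G]

/-- **Fitting's lemma.** -/
theorem bijective_or_nilpotent (hG : Indecomposable G) {f : G →* G} (hf : NormalEndo f) :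
    Function.Bijective f ∨ ∃ n, ∀ x, power f n x = 1 := by
  obtain ⟨_, ⟨k, rfl⟩, hmin⟩ := Set.Finite.exists_minimal
    (Set.toFinite (Set.range fun k => (power f (k + 1)).range)) (Set.range_nonempty _)
  set h := power f (k + 1)
  have hle : (power f (k + 1 + (k + 1))).range ≤ h.range := by
    rintro - ⟨x, rfl⟩
    exact ⟨power f (k + 1) x, (power_add f _ _ x).symm⟩
  have hstab : h.range ≤ (power f (k + 1 + (k + 1))).range :=
    hmin ⟨k + 1 + k, rfl⟩ hle
  let r : h.range → h.range := fun y => ⟨h y, y, rfl⟩
  have hrs : Function.Surjective r := fun y => by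
    obtain ⟨x, hx⟩ := hstab y.2
    exact ⟨⟨h x, x, rfl⟩, Subtype.ext ((power_add f _ _ x).symm.trans hx)⟩
  have hri : Function.Injective r := Finite.injective_iff_surjective.2 hrs
  have hdis : Disjoint h.ker h.range := by
    rw [Subgroup.disjoint_def]
    intro y hy hy'
    exact congrArg Subtype.val (hri (a₁ := ⟨y, hy'⟩) (a₂ := 1)
      (Subtype.ext (hy.trans (map_one h).symm)))
  have hcard : Nat.card h.ker * Nat.card h.range = Nat.card G := by
    rw [← index_ker, mul_comm, index_mul_card]
  haveI hn : h.range.Normal := ⟨fun y ⟨x, hx⟩ g => ⟨g * x * g⁻¹, by rw [← hx]; exact hf.power _ g x⟩⟩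
  rcases hG.2 h.ker h.range inferInstance hn
    (isComplement'_of_card_mul_and_disjoint hcard hdis) with h0 | h0
  · refine Or.inl (Finite.injective_iff_bijective.1 fun a b e => ?_)
    refine (MonoidHom.ker_eq_bot_iff h).1 h0 ?_
    show power f (k + 1) a = power f (k + 1) b
    rw [power_add f k 1 a, power_add f k 1 b]
    exact congrArg (power f k) e
  · refine Or.inr ⟨k + 1, fun x => ?_⟩
    have hx : h x ∈ h.range := ⟨x, rfl⟩
    rwa [h0, mem_bot] at hx

/-- Two normal endomorphisms with an automorphism as product include an automorphism. -/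
theorem bijective_of_mul (hG : Indecomposable G) {f g p : G →* G} (hf : NormalEndo f)
    (hg : NormalEndo g) (hp : ∀ x, p x = f x * g x) (hbij : Function.Bijective p) :
    Function.Bijective f ∨ Function.Bijective g := by
  let e : G ≃* G := MulEquiv.ofBijective p hbij
  have he : ∀ x, e x = f x * g x := hp
  have hesymm : ∀ a x, e.symm (a * x * a⁻¹) = a * e.symm x * a⁻¹ := fun a x => by
    refine e.injective ?_
    rw [MulEquiv.apply_symm_apply, he, hf, hg]
    rw [show a * f (e.symm x) * a⁻¹ * (a * g (e.symm x) * a⁻¹) =
      a * (f (e.symm x) * g (e.symm x)) * a⁻¹ by group, ← he, MulEquiv.apply_symm_apply]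
  set f' : G →* G := e.symm.toMonoidHom.comp f
  have hf' : NormalEndo f' := fun a x => by
    show e.symm (f (a * x * a⁻¹)) = a * e.symm (f x) * a⁻¹
    rw [hf, hesymm]
  rcases bijective_or_nilpotent hG hf' with h | ⟨n, hn⟩
  · refine Or.inl ?_
    have hcomp : ⇑f = e ∘ f' := funext fun x => (e.apply_symm_apply (f x)).symm
    rw [hcomp]
    exact e.bijective.comp h
  · refine Or.inr (Finite.injective_iff_bijective.1 ((injective_iff_map_eq_one g).2 fun x hx => ?_))
    have hfix : f' x = x := e.injective (by
      show e (e.symm (f x)) = e x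
      rw [MulEquiv.apply_symm_apply, he, hx, mul_one])
    have hall : ∀ m, power f' m x = x := fun m => by
      induction m with
      | zero => rfl
      | succ m ih => show f' (power f' m x) = x; rw [ih, hfix]
    rw [← hall n, hn x]

end FA.KrullRemakSchmidt

end
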