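import Fermat.Agent.KrullRemakSchmidt.Exchange
import Mathlib.Algebra.Category.Grp.Basic
import Mathlib.Data.Fin.Tuple.Basic
import Mathlib.GroupTheory.NoncommCoprod
import Mathlib.Logic.Equiv.Fin.Basic

/-!
# The Krull–Remak–Schmidt theorem, cancellation and square roots
-/

set_option autoImplicit false
set_option linter.style.haveILetI false

noncomputable section

open Subgroup

universe u

namespace FA.KrullRemakSchmidt

/-- The product of the parts of a complemented pair of normal subgroups. -/
theorem nonempty_equiv_prod {G : Type u} [Group G] {H K : Subgroup G} (hH : H.Normal)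
    (hK : K.Normal) (h : H.IsComplement' K) : Nonempty (G ≃* H × K) := by
  have hcomm : ∀ (a : H) (b : K), Commute (H.subtype a) (K.subtype b) := fun a b =>
    commute_of_normal_of_disjoint H K hH hK h.disjoint a b a.2 b.2
  exact ⟨(MulEquiv.ofBijective (H.subtype.noncommCoprod K.subtype hcomm) h).symm⟩

/-- A nontrivial finite group has an indecomposable direct factor. -/
theorem exists_indecomposable_factor (G : Type u) [Group G] [Finite G] [Nontrivial G] :
    ∃ (P Q : Subgroup G), Indecomposable P ∧ Nonempty (G ≃* P × Q) := by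
  induction hn : Nat.card G using Nat.strong_induction_on generalizing G with
  | _ n ih =>
    by_cases h : Indecomposable G
    · refine ⟨⊤, ⊥, ?_, ⟨Subgroup.topEquiv.symm.trans MulEquiv.prodUnique.symm⟩⟩
      refine ⟨Subgroup.topEquiv.toEquiv.nontrivial, fun H K hH hK hHK => ?_⟩
      obtain hH' | hK' := h.2 _ _ (hH.map Subgroup.topEquiv.toMonoidHom Subgroup.topEquiv.surjective)
        (hK.map Subgroup.topEquiv.toMonoidHom Subgroup.topEquiv.surjective)
        (isComplement'_of_card_mul_and_disjoint (by
          rw [card_map_of_injective Subgroup.topEquiv.injective,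
            card_map_of_injective Subgroup.topEquiv.injective, hHK.card_mul_card, card_top])
          (by
            rw [disjoint_iff, ← map_inf _ _ _ Subgroup.topEquiv.injective, hHK.disjoint.eq_bot,
              Subgroup.map_bot]))
      · exact Or.inl ((map_eq_bot_iff_of_injective H Subgroup.topEquiv.injective).1 hH')
      · exact Or.inr ((map_eq_bot_iff_of_injective K Subgroup.topEquiv.injective).1 hK')
    · simp only [Indecomposable, not_and, not_forall, not_or] at h
      obtain ⟨H, K, hH, hK, hHK, hH0, hK0⟩ := h inferInstance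
      obtain ⟨e⟩ := nonempty_equiv_prod hH hK hHK
      haveI : Nontrivial H := (nontrivial_iff_ne_bot H).2 hH0
      have hlt : Nat.card H < n := by
        rw [← hn, ← hHK.card_mul_card]
        exact lt_mul_of_one_lt_right Nat.card_pos (Finite.one_lt_card_iff_nontrivial.2
          ((nontrivial_iff_ne_bot K).2 hK0))
      obtain ⟨P, Q, hP, ⟨d⟩⟩ := ih _ hlt H rfl
      let e₁ : G ≃* P × (Q × K) :=
        (e.trans (MulEquiv.prodCongr d (MulEquiv.refl K))).trans MulEquiv.prodAssoc
      -- move the parts back into `G`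
      let P' : Subgroup G := P.map H.subtype
      let R : Subgroup G := (e₁.symm.toMonoidHom.comp (MonoidHom.inr P (Q × K))).range
      refine ⟨P', R, ?_, ⟨e₁.trans (MulEquiv.prodCongr (equivMapOfInjective P _ H.subtype_injective)
        (MonoidHom.ofInjective ?_))⟩⟩
      · obtain ⟨hPn, hPi⟩ := hP
        let t := equivMapOfInjective P _ H.subtype_injective
        refine ⟨t.symm.toEquiv.nontrivial, fun A B hA hB hAB => ?_⟩
        obtain hA' | hB' := hPi _ _ (hA.map t.symm.toMonoidHom t.symm.surjective)
          (hB.map t.symm.toMonoidHom t.symm.surjective)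
          (isComplement'_of_card_mul_and_disjoint (by
            rw [card_map_of_injective t.symm.injective, card_map_of_injective t.symm.injective,
              hAB.card_mul_card]
            exact Nat.card_congr t.symm.toEquiv)
            (by
              rw [disjoint_iff, ← map_inf _ _ _ t.symm.injective, hAB.disjoint.eq_bot,
                Subgroup.map_bot]))
        · exact Or.inl ((map_eq_bot_iff_of_injective A t.symm.injective).1 hA')
        · exact Or.inr ((map_eq_bot_iff_of_injective B t.symm.injective).1 hB')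
      · exact e₁.symm.injective.comp fun a b h => congrArg Prod.snd h

variable {n : ℕ}

/-- Split off the first factor. -/
def consEquiv (B : Fin (n + 1) → Type u) [∀ i, Group (B i)] :
    B 0 × ((i : Fin n) → B i.succ) ≃* ((i : Fin (n + 1)) → B i) where
  toFun p := Fin.cons p.1 p.2
  invFun f := (f 0, fun i => f i.succ)
  left_inv p := by simp
  right_inv f := funext fun i => by cases i using Fin.cases <;> simp
  map_mul' p q := funext fun i => by cases i using Fin.cases <;> simp

/-- Equal indices give isomorphic members. -/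
theorem nonempty_equiv_of_eq {ι : Type*} (B : ι → Type u) [∀ i, Group (B i)] {i j : ι} (h : i = j) :
    Nonempty (B i ≃* B j) := by
  subst h
  exact ⟨MulEquiv.refl _⟩

/-- An indecomposable group has no proper factor. -/
theorem Indecomposable.equiv_of_prod {Y C : Type u} [Group Y] [Group C] [Finite Y] [Nontrivial C]
    (hY : Indecomposable Y) {K : Subgroup Y} (e : Y ≃* C × K) :
    Nonempty (C ≃* Y) ∧ Subsingleton K := by
  set H := (e.symm.toMonoidHom.comp (MonoidHom.inl C K)).range with hH
  set L := (e.symm.toMonoidHom.comp (MonoidHom.inr C K)).range with hL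
  have hHn : H.Normal := by
    rw [hH, MonoidHom.range_comp]
    refine (Subgroup.Normal.map ?_ _ e.symm.surjective)
    exact ⟨fun p ⟨c, hc⟩ g => ⟨g.1 * c * g.1⁻¹, by rw [← hc]; simp [Prod.ext_iff]⟩⟩
  have hLn : L.Normal := by
    rw [hL, MonoidHom.range_comp]
    refine (Subgroup.Normal.map ?_ _ e.symm.surjective)
    exact ⟨fun p ⟨c, hc⟩ g => ⟨g.2 * c * g.2⁻¹, by rw [← hc]; simp [Prod.ext_iff]⟩⟩
  have hinl : Function.Injective (e.symm.toMonoidHom.comp (MonoidHom.inl C K)) :=
    e.symm.injective.comp fun a b h => congrArg Prod.fst h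
  have hinr : Function.Injective (e.symm.toMonoidHom.comp (MonoidHom.inr C K)) :=
    e.symm.injective.comp fun a b h => congrArg Prod.snd h
  haveI : Finite (C × K) := Finite.of_equiv _ e.toEquiv
  rcases hY.2 H L hHn hLn (isComplement'_of_card_mul_and_disjoint (by
      rw [hH, hL, ← Nat.card_congr (MonoidHom.ofInjective hinl).toEquiv,
        ← Nat.card_congr (MonoidHom.ofInjective hinr).toEquiv, ← Nat.card_prod]
      exact Nat.card_congr e.symm.toEquiv) (by
      rw [Subgroup.disjoint_def]
      rintro - ⟨c, rfl⟩ ⟨k, hk⟩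
      have : ((1 : C), k) = (c, 1) := e.symm.injective hk
      rw [show c = 1 from (congrArg Prod.fst this).symm, map_one])) with h | h
  · obtain ⟨c, hc⟩ := exists_ne (1 : C)
    exact absurd (hinl ((mem_bot.1 (h ▸ ⟨c, rfl⟩ : _ ∈ (⊥ : Subgroup Y))).trans (map_one _).symm)) hc
  · haveI hK : Subsingleton K := ⟨fun a b => hinr
      ((mem_bot.1 (h ▸ ⟨a, rfl⟩ : _ ∈ (⊥ : Subgroup Y))).trans
        (mem_bot.1 (h ▸ ⟨b, rfl⟩ : _ ∈ (⊥ : Subgroup Y))).symm)⟩
    haveI : Unique K := uniqueOfSubsingleton 1
    exact ⟨⟨(e.trans MulEquiv.prodUnique).symm⟩, hK⟩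

/-- **Exchange** in a product of indecomposables. -/
theorem exists_factor_iso {C : Type u} [Group C] [Finite C] (hC : Indecomposable C) :
    ∀ {n : ℕ} {A : Type u} [Group A] [Finite A] (B : Fin (n + 1) → Type u) [∀ i, Group (B i)]
      [∀ i, Finite (B i)], (∀ i, Indecomposable (B i)) → (C × A ≃* ((i : Fin (n + 1)) → B i)) →
      ∃ j : Fin (n + 1), Nonempty (C ≃* B j) ∧
        Nonempty (A ≃* ((i : Fin n) → B (j.succAbove i))) := by
  haveI := hC.1
  intro n
  induction n with
  | zero =>
    intro A _ _ B _ _ hB e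
    rcases exists_exchange hC (e.trans (consEquiv B).symm) with ⟨K, ⟨d⟩, ⟨a⟩⟩ | ⟨K, ⟨d⟩, -⟩
    · obtain ⟨hCY, hK⟩ := (hB 0).equiv_of_prod d
      haveI : Unique K := uniqueOfSubsingleton 1
      exact ⟨0, hCY, ⟨(a.trans MulEquiv.uniqueProd).trans
        (MulEquiv.piCongrRight fun i : Fin 0 => i.elim0)⟩⟩
    · obtain ⟨c, hc⟩ := exists_ne (1 : C)
      have h := congrArg d (Subsingleton.elim (d.symm (c, 1)) (d.symm (1, 1)))
      rw [MulEquiv.apply_symm_apply, MulEquiv.apply_symm_apply] at h
      exact absurd (congrArg Prod.fst h) hc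
  | succ n ih =>
    intro A _ _ B _ _ hB e
    rcases exists_exchange hC (e.trans (consEquiv B).symm) with ⟨K, ⟨d⟩, ⟨a⟩⟩ | ⟨K, ⟨d⟩, ⟨a⟩⟩
    · obtain ⟨hCY, hK⟩ := (hB 0).equiv_of_prod d
      haveI : Unique K := uniqueOfSubsingleton 1
      refine ⟨0, hCY, ⟨(a.trans MulEquiv.uniqueProd).trans (MulEquiv.piCongrRight fun i =>
        Classical.choice (nonempty_equiv_of_eq B ?_))⟩⟩
      rw [Fin.succAbove_zero]
    · obtain ⟨j, hCj, ⟨k⟩⟩ := ih (fun i => B i.succ) (fun i => hB i.succ) d.symm
      refine ⟨j.succ, hCj, ⟨(a.trans (MulEquiv.prodComm.trans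
        (MulEquiv.prodCongr (MulEquiv.refl (B 0)) k))).trans
        ((MulEquiv.prodCongr (Classical.choice (nonempty_equiv_of_eq B ?_))
          (MulEquiv.piCongrRight fun i => Classical.choice (nonempty_equiv_of_eq B ?_))).trans
            (consEquiv fun i => B (j.succ.succAbove i)))⟩⟩
      · rw [Fin.succ_succAbove_zero]
      · rw [Fin.succ_succAbove_succ]

/-- **The Krull–Remak–Schmidt theorem.** -/
theorem krs : ∀ {m n : ℕ} (A : Fin m → Type u) (B : Fin n → Type u) [∀ i, Group (A i)]
    [∀ i, Group (B i)] [∀ i, Finite (A i)] [∀ i, Finite (B i)],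
    (∀ i, Indecomposable (A i)) → (∀ i, Indecomposable (B i)) →
    (((i : Fin m) → A i) ≃* ((i : Fin n) → B i)) →
    ∃ σ : Fin m ≃ Fin n, ∀ i, Nonempty (A i ≃* B (σ i)) := by
  intro m
  induction m with
  | zero =>
    intro n A B _ _ _ _ _ hB e
    rcases n with _ | n
    · exact ⟨Equiv.refl _, fun i => i.elim0⟩
    · obtain ⟨b, hb⟩ := (@exists_ne _ (hB 0).1 (1 : B 0))
      have h := congrArg e (Subsingleton.elim (e.symm (consEquiv B (b, 1))) (e.symm (consEquiv B 1)))
      rw [MulEquiv.apply_symm_apply, MulEquiv.apply_symm_apply] at h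
      exact absurd (congrArg Prod.fst ((consEquiv B).injective h)) hb
  | succ m ih =>
    intro n A B _ _ _ _ hA hB e
    rcases n with _ | n
    · obtain ⟨a, ha⟩ := (@exists_ne _ (hA 0).1 (1 : A 0))
      exact absurd (congrArg Prod.fst ((consEquiv A).injective
        (e.injective (Subsingleton.elim (e (consEquiv A (a, 1))) (e (consEquiv A 1)))))) ha
    · obtain ⟨j, hj, ⟨r⟩⟩ := exists_factor_iso (hA 0) B hB ((consEquiv A).trans e)
      obtain ⟨σ, hσ⟩ := ih (fun i => A i.succ) (fun i => B (j.succAbove i)) (fun i => hA i.succ)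
        (fun i => hB _) r
      refine ⟨((finSuccEquiv m).trans σ.optionCongr).trans (finSuccEquiv' j).symm, fun i => ?_⟩
      cases i using Fin.cases with
      | zero =>
        obtain ⟨c⟩ := hj
        obtain ⟨d⟩ := nonempty_equiv_of_eq B
          (show j = _ from ((by simp : (finSuccEquiv' j).symm none = j)).symm)
        exact ⟨c.trans (d.trans (Classical.choice (nonempty_equiv_of_eq B (by simp))))⟩
      | succ i =>
        obtain ⟨c⟩ := hσ i
        exact ⟨c.trans (Classical.choice (nonempty_equiv_of_eq B (by simp)))⟩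

/-- **Decompositions exist.** -/
theorem exists_decomposition (G : Type u) [Group G] [Finite G] :
    ∃ (m : ℕ) (A : Fin m → GrpCat.{u}), (∀ i, Finite (A i) ∧ Indecomposable (A i)) ∧
      Nonempty (G ≃* ((i : Fin m) → A i)) := by
  induction hn : Nat.card G using Nat.strong_induction_on generalizing G with
  | _ n ih =>
    rcases subsingleton_or_nontrivial G with h | h
    · haveI : Unique G := uniqueOfSubsingleton 1
      exact ⟨0, Fin.elim0, fun i => i.elim0, ⟨MulEquiv.ofUnique⟩⟩
    · obtain ⟨P, Q, hP, ⟨d⟩⟩ := exists_indecomposable_factor G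
      obtain ⟨m, A, hA, ⟨a⟩⟩ := ih (Nat.card Q) (by
        rw [← hn, Nat.card_congr d.toEquiv, Nat.card_prod]
        exact lt_mul_of_one_lt_left Nat.card_pos (Finite.one_lt_card_iff_nontrivial.2 hP.1)) Q rfl
      refine ⟨m + 1, Fin.cons (GrpCat.of P) A, fun i => ?_,
        ⟨(d.trans (MulEquiv.prodCongr (MulEquiv.refl P) a)).trans
          (consEquiv fun i => ((Fin.cons (GrpCat.of P) A : Fin (m + 1) → GrpCat.{u}) i : Type u))⟩⟩
      cases i using Fin.cases with
      | zero => exact ⟨inferInstanceAs (Finite P), hP⟩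
      | succ i => exact hA i

/-- Cancelling an indecomposable factor. -/
theorem cancel_indecomposable {A B C : Type u} [Group A] [Group B] [Group C] [Finite A] [Finite C]
    (hC : Indecomposable C) (e : C × A ≃* C × B) : Nonempty (A ≃* B) := by
  haveI := hC.1
  rcases exists_exchange hC e with ⟨K, ⟨d⟩, ⟨a⟩⟩ | ⟨K, ⟨d⟩, ⟨a⟩⟩
  · obtain ⟨-, hK⟩ := hC.equiv_of_prod d
    haveI : Unique K := uniqueOfSubsingleton 1
    exact ⟨a.trans MulEquiv.uniqueProd⟩
  · exact ⟨(a.trans MulEquiv.prodComm).trans d.symm⟩

/-- **Cancellation.** -/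
theorem cancel {C : Type u} [Group C] [Finite C] :
    ∀ {A B : Type u} [Group A] [Group B] [Finite A], (A × C ≃* B × C) → Nonempty (A ≃* B) := by
  induction hn : Nat.card C using Nat.strong_induction_on generalizing C with
  | _ n ih =>
    intro A B _ _ _ e
    rcases subsingleton_or_nontrivial C with h | h
    · haveI : Unique C := uniqueOfSubsingleton 1
      exact ⟨(MulEquiv.prodUnique.symm.trans e).trans MulEquiv.prodUnique⟩
    · obtain ⟨P, Q, hP, ⟨d⟩⟩ := exists_indecomposable_factor C
      let m : ∀ (X : Type u) [Group X], P × (X × Q) ≃* X × C := fun X _ =>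
        (MulEquiv.prodAssoc.symm.trans ((MulEquiv.prodCongr MulEquiv.prodComm (MulEquiv.refl Q)).trans
          MulEquiv.prodAssoc)).trans (MulEquiv.prodCongr (MulEquiv.refl X) d.symm)
      obtain ⟨c⟩ := cancel_indecomposable hP ((m A).trans (e.trans (m B).symm))
      refine ih (Nat.card Q) ?_ rfl c
      rw [← hn, Nat.card_congr d.toEquiv, Nat.card_prod]
      exact lt_mul_of_one_lt_left Nat.card_pos (Finite.one_lt_card_iff_nontrivial.2 hP.1)

/-- **Square roots.** -/
theorem square_root {A : Type u} [Group A] [Finite A] :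
    ∀ {B : Type u} [Group B], (A × A ≃* B × B) → Nonempty (A ≃* B) := by
  induction hn : Nat.card A using Nat.strong_induction_on generalizing A with
  | _ n ih =>
    intro B _ e
    haveI : Finite (B × B) := Finite.of_equiv _ e.toEquiv
    haveI : Finite B := Finite.of_injective (fun b : B => (b, b)) fun a b h => congrArg Prod.fst h
    rcases subsingleton_or_nontrivial A with h | h
    · haveI : Unique A := uniqueOfSubsingleton 1
      haveI : Subsingleton B :=
        ⟨fun a b => congrArg Prod.fst (e.symm.injective (Subsingleton.elim (e.symm (a, a)) (e.symm (b, a))))⟩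
      haveI : Unique B := uniqueOfSubsingleton 1
      exact ⟨MulEquiv.ofUnique⟩
    · obtain ⟨P, Q, hP, ⟨d⟩⟩ := exists_indecomposable_factor A
      haveI := hP.1
      have hfac : ∃ K : Subgroup B, Nonempty (B ≃* P × K) := by
        rcases exists_exchange hP (MulEquiv.prodAssoc.symm.trans
          ((MulEquiv.prodCongr d.symm (MulEquiv.refl A)).trans e)) with ⟨K, hK, -⟩ | ⟨K, hK, -⟩
        · exact ⟨K, hK⟩
        · exact ⟨K, hK⟩
      obtain ⟨K, ⟨k⟩⟩ := hfac
      let sq : ∀ (X : Type u) [Group X], (X × X) × (P × P) ≃* (P × X) × (P × X) := fun X _ =>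
        MulEquiv.prodComm.trans (MulEquiv.prodProdProdComm P P X X)
      obtain ⟨c⟩ := cancel ((sq Q).trans ((MulEquiv.prodCongr d.symm d.symm).trans
        (e.trans ((MulEquiv.prodCongr k k).trans (sq K).symm))))
      obtain ⟨s⟩ := ih (Nat.card Q) (by
        rw [← hn, Nat.card_congr d.toEquiv, Nat.card_prod]
        exact lt_mul_of_one_lt_left Nat.card_pos (Finite.one_lt_card_iff_nontrivial.2 hP.1)) rfl c
      exact ⟨d.trans ((MulEquiv.prodCongr (MulEquiv.refl P) s).trans k.symm)⟩

end FA.KrullRemakSchmidt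

end
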